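/-
EllRed (helper75): the residue map of a valuation subring as a total function `K → k`,
with the algebra needed to transport polynomial identities.
-/
import Mathlib

set_option autoImplicit false

namespace Fermat.Agent.EllRed

open IsLocalRing

variable {K : Type*} [Field K] (A : ValuationSubring K)

/-- The residue of an element of `K` (junk value `0` outside `A`). -/
noncomputable def res (x : K) : ResidueField A :=
  open Classical in if hx : x ∈ A then residue A ⟨x, hx⟩ else 0

variable {A}

lemma res_of_mem {x : K} (hx : x ∈ A) : res A x = residue A ⟨x, hx⟩ := by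
  simp only [res, dif_pos hx]

lemma res_coe (a : A) : res A (a : K) = residue A a := by
  rw [res_of_mem a.2]

@[simp] lemma res_zero : res A (0 : K) = 0 := by
  rw [res_of_mem A.zero_mem]
  exact map_zero (residue A)

@[simp] lemma res_one : res A (1 : K) = 1 := by
  rw [res_of_mem A.one_mem]
  exact map_one (residue A)

lemma res_add {x y : K} (hx : x ∈ A) (hy : y ∈ A) : res A (x + y) = res A x + res A y := by
  rw [res_of_mem hx, res_of_mem hy, res_of_mem (A.add_mem _ _ hx hy), ← map_add]
  rfl

lemma res_mul {x y : K} (hx : x ∈ A) (hy : y ∈ A) : res A (x * y) = res A x * res A y := by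
  rw [res_of_mem hx, res_of_mem hy, res_of_mem (A.mul_mem _ _ hx hy), ← map_mul]
  rfl

lemma res_neg {x : K} (hx : x ∈ A) : res A (-x) = -res A x := by
  rw [res_of_mem hx, res_of_mem (A.neg_mem _ hx), ← map_neg]
  rfl

lemma res_sub {x y : K} (hx : x ∈ A) (hy : y ∈ A) : res A (x - y) = res A x - res A y := by
  rw [sub_eq_add_neg, res_add hx (A.neg_mem _ hy), res_neg hy, sub_eq_add_neg]

lemma res_pow {x : K} (hx : x ∈ A) (n : ℕ) : res A (x ^ n) = res A x ^ n := by
  rw [res_of_mem hx, res_of_mem (pow_mem hx n), ← map_pow]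
  rfl

lemma res_natCast (n : ℕ) : res A (n : K) = (n : ResidueField A) := by
  have h : (n : K) ∈ A := natCast_mem A n
  rw [res_of_mem h]
  have : (⟨(n : K), h⟩ : A) = (n : A) := by
    apply Subtype.ext
    simp
  rw [this, map_natCast]

lemma res_ofNat (n : ℕ) [n.AtLeastTwo] :
    res A (OfNat.ofNat n : K) = (OfNat.ofNat n : ResidueField A) := by
  have h := res_natCast (A := A) n
  rwa [← Nat.cast_ofNat (R := K), ← Nat.cast_ofNat (R := ResidueField A)]

lemma res_eq_zero_iff {x : K} (hx : x ∈ A) : res A x = 0 ↔ A.valuation x < 1 := by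
  rw [res_of_mem hx, residue_eq_zero_iff, ValuationSubring.valuation_lt_one_iff]

lemma res_ne_zero_iff {x : K} (hx : x ∈ A) : res A x ≠ 0 ↔ A.valuation x = 1 := by
  rw [Ne, res_eq_zero_iff hx, not_lt]
  have hle : A.valuation x ≤ 1 := (A.valuation_le_one_iff x).2 hx
  exact ⟨fun h => le_antisymm hle h, fun h => h.ge⟩

lemma res_eq_iff {x y : K} (hx : x ∈ A) (hy : y ∈ A) :
    res A x = res A y ↔ A.valuation (x - y) < 1 := by
  rw [← res_eq_zero_iff (sub_mem hx hy), res_sub hx hy, sub_eq_zero]

lemma mem_of_valuation_eq_one {x : K} (h : A.valuation x = 1) : x ∈ A :=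
  (A.valuation_le_one_iff x).1 h.le

lemma inv_mem_of_valuation_eq_one {x : K} (h : A.valuation x = 1) : x⁻¹ ∈ A := by
  apply (A.valuation_le_one_iff _).1
  rw [map_inv₀, h, inv_one]

lemma res_inv {x : K} (h : A.valuation x = 1) : res A x⁻¹ = (res A x)⁻¹ := by
  have hx := mem_of_valuation_eq_one h
  have hx' := inv_mem_of_valuation_eq_one h
  have hne : res A x ≠ 0 := (res_ne_zero_iff hx).2 h
  have hx0 : x ≠ 0 := by
    rintro rfl
    simp at h
  apply eq_inv_of_mul_eq_one_left
  rw [← res_mul hx' hx, inv_mul_cancel₀ hx0, res_one]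

lemma div_mem_of_valuation_eq_one {x y : K} (hx : x ∈ A) (h : A.valuation y = 1) : x / y ∈ A := by
  rw [div_eq_mul_inv]
  exact A.mul_mem _ _ hx (inv_mem_of_valuation_eq_one h)

lemma res_div {x y : K} (hx : x ∈ A) (h : A.valuation y = 1) :
    res A (x / y) = res A x / res A y := by
  rw [div_eq_mul_inv, res_mul hx (inv_mem_of_valuation_eq_one h), res_inv h, div_eq_mul_inv]

/-- Every element of the residue field is a residue. -/
lemma exists_res_eq (z : ResidueField A) : ∃ x : K, x ∈ A ∧ res A x = z := by
  obtain ⟨a, rfl⟩ := residue_surjective z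
  exact ⟨a, a.2, res_coe a⟩

end Fermat.Agent.EllRed
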