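/-
EllRed (helper75): reduction of points of a Weierstrass curve with integral coefficients and
good reduction, modulo a valuation subring.  Definitions and basic properties.
-/
import Mathlib
import Fermat.Agent.Lib.EllRed.Res
import Fermat.Agent.S05.H75.KerRed
import Fermat.Agent.S05.H5.Sing

set_option autoImplicit false

namespace Fermat.Agent.EllRed

open WeierstrassCurve WeierstrassCurve.Affine IsLocalRing

variable {K : Type*} [Field K] (A : ValuationSubring K)

/-- `Ek` is the reduction of `E` modulo the valuation subring `A`: the coefficients of `E` lie in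
`A` and their residues are the coefficients of `Ek`. -/
structure IsReduction (E : Affine K) (Ek : Affine (ResidueField A)) : Prop where
  mem_a₁ : E.a₁ ∈ A
  mem_a₂ : E.a₂ ∈ A
  mem_a₃ : E.a₃ ∈ A
  mem_a₄ : E.a₄ ∈ A
  mem_a₆ : E.a₆ ∈ A
  res_a₁ : res A E.a₁ = Ek.a₁
  res_a₂ : res A E.a₂ = Ek.a₂
  res_a₃ : res A E.a₃ = Ek.a₃
  res_a₄ : res A E.a₄ = Ek.a₄
  res_a₆ : res A E.a₆ = Ek.a₆

variable {A} {E : Affine K} {Ek : Affine (ResidueField A)}

namespace IsReduction

variable (h : IsReduction A E Ek)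
include h

/-- The integral model over `A`. -/
def intModel : Affine A :=
  { a₁ := ⟨E.a₁, h.mem_a₁⟩
    a₂ := ⟨E.a₂, h.mem_a₂⟩
    a₃ := ⟨E.a₃, h.mem_a₃⟩
    a₄ := ⟨E.a₄, h.mem_a₄⟩
    a₆ := ⟨E.a₆, h.mem_a₆⟩ }

lemma intModel_map_subtype : (h.intModel).map A.subtype = E := rfl

lemma intModel_map_subtype' : WeierstrassCurve.map (h.intModel) A.subtype = E := rfl

lemma intModel_map_residue : (h.intModel).map (residue A) = Ek := by
  ext
  · show residue A ⟨E.a₁, h.mem_a₁⟩ = _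
    rw [← res_of_mem, h.res_a₁]
  · show residue A ⟨E.a₂, h.mem_a₂⟩ = _
    rw [← res_of_mem, h.res_a₂]
  · show residue A ⟨E.a₃, h.mem_a₃⟩ = _
    rw [← res_of_mem, h.res_a₃]
  · show residue A ⟨E.a₄, h.mem_a₄⟩ = _
    rw [← res_of_mem, h.res_a₄]
  · show residue A ⟨E.a₆, h.mem_a₆⟩ = _
    rw [← res_of_mem, h.res_a₆]

lemma intModel_map_residue' : WeierstrassCurve.map (h.intModel) (residue A) = Ek :=
  h.intModel_map_residue

lemma val_a₁ : A.valuation E.a₁ ≤ 1 := (A.valuation_le_one_iff _).2 h.mem_a₁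
lemma val_a₂ : A.valuation E.a₂ ≤ 1 := (A.valuation_le_one_iff _).2 h.mem_a₂
lemma val_a₃ : A.valuation E.a₃ ≤ 1 := (A.valuation_le_one_iff _).2 h.mem_a₃
lemma val_a₄ : A.valuation E.a₄ ≤ 1 := (A.valuation_le_one_iff _).2 h.mem_a₄
lemma val_a₆ : A.valuation E.a₆ ≤ 1 := (A.valuation_le_one_iff _).2 h.mem_a₆

lemma mem_b₂ : E.b₂ ∈ A := by
  have h1 := h.mem_a₁; have h2 := h.mem_a₂
  have h4 : (4 : K) ∈ A := ofNat_mem A 4
  simp only [WeierstrassCurve.b₂]
  exact add_mem (pow_mem h1 2) (mul_mem h4 h2)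

lemma mem_b₄ : E.b₄ ∈ A := by
  have h1 := h.mem_a₁; have h3 := h.mem_a₃; have h4 := h.mem_a₄
  have h2 : (2 : K) ∈ A := ofNat_mem A 2
  simp only [WeierstrassCurve.b₄]
  exact add_mem (mul_mem h2 h4) (mul_mem h1 h3)

lemma mem_b₆ : E.b₆ ∈ A := by
  have h3 := h.mem_a₃; have h6 := h.mem_a₆
  have h4 : (4 : K) ∈ A := ofNat_mem A 4
  simp only [WeierstrassCurve.b₆]
  exact add_mem (pow_mem h3 2) (mul_mem h4 h6)

lemma mem_b₈ : E.b₈ ∈ A := by
  have h1 := h.mem_a₁; have h2 := h.mem_a₂; have h3 := h.mem_a₃; have h4 := h.mem_a₄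
  have h6 := h.mem_a₆
  have h4' : (4 : K) ∈ A := ofNat_mem A 4
  simp only [WeierstrassCurve.b₈]
  exact sub_mem (add_mem (sub_mem (add_mem (mul_mem (pow_mem h1 2) h6)
    (mul_mem (mul_mem h4' h2) h6)) (mul_mem (mul_mem h1 h3) h4)) (mul_mem h2 (pow_mem h3 2)))
    (pow_mem h4 2)

lemma val_b₂ : A.valuation E.b₂ ≤ 1 := (A.valuation_le_one_iff _).2 h.mem_b₂
lemma val_b₄ : A.valuation E.b₄ ≤ 1 := (A.valuation_le_one_iff _).2 h.mem_b₄
lemma val_b₆ : A.valuation E.b₆ ≤ 1 := (A.valuation_le_one_iff _).2 h.mem_b₆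
lemma val_b₈ : A.valuation E.b₈ ≤ 1 := (A.valuation_le_one_iff _).2 h.mem_b₈

/-- Integrality of the `y`-coordinate of a point with integral `x`-coordinate. -/
lemma mem_y {x y : K} (hxy : E.Equation x y) (hx : x ∈ A) : y ∈ A :=
  (A.valuation_le_one_iff _).1 <|
    S05H5.v_y_le_one A.valuation E h.val_a₁ h.val_a₂ h.val_a₃ h.val_a₄ h.val_a₆ hxy
      ((A.valuation_le_one_iff _).2 hx)

/-- The equation of the curve reduces. -/
lemma equation_res {x y : K} (hxy : E.Equation x y) (hx : x ∈ A) (hy : y ∈ A) :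
    Ek.Equation (res A x) (res A y) := by
  have h1 : (h.intModel).Equation (⟨x, hx⟩ : A) (⟨y, hy⟩ : A) := by
    rw [← Affine.map_equation (W := h.intModel) (f := A.subtype) Subtype.val_injective]
    exact hxy
  have h2 := Affine.Equation.map (residue A) h1
  rw [h.intModel_map_residue] at h2
  rwa [res_of_mem hx, res_of_mem hy]

/-- The discriminant reduces. -/
lemma res_Δ : res A E.Δ = Ek.Δ := by
  have h1 : (h.intModel.Δ : K) = E.Δ := by
    have := WeierstrassCurve.map_Δ (h.intModel) A.subtype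
    rw [h.intModel_map_subtype'] at this
    exact this.symm
  have h2 : residue A h.intModel.Δ = Ek.Δ := by
    have := WeierstrassCurve.map_Δ (h.intModel) (residue A)
    rw [h.intModel_map_residue'] at this
    exact this.symm
  rw [← h1, res_coe, h2]

lemma mem_Δ : E.Δ ∈ A := by
  have h1 : (h.intModel.Δ : K) = E.Δ := by
    have := WeierstrassCurve.map_Δ (h.intModel) A.subtype
    rw [h.intModel_map_subtype'] at this
    exact this.symm
  rw [← h1]
  exact (h.intModel.Δ).2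

lemma val_Δ_eq_one (hΔ : Ek.Δ ≠ 0) : A.valuation E.Δ = 1 := by
  rw [← res_ne_zero_iff h.mem_Δ, h.res_Δ]
  exact hΔ

/-- With good reduction, every integral point reduces to a nonsingular point. -/
lemma nonsingular_res (hΔ : Ek.Δ ≠ 0) {x y : K} (hxy : E.Equation x y) (hx : x ∈ A) (hy : y ∈ A) :
    Ek.Nonsingular (res A x) (res A y) :=
  (Affine.equation_iff_nonsingular_of_Δ_ne_zero hΔ).1 (h.equation_res hxy hx hy)

end IsReduction

end Fermat.Agent.EllRed
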