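/-
EllRed (helper75): the reduction map on points `red : E(K) → Ek(k)` for a Weierstrass curve with
integral coefficients and good reduction modulo a valuation subring.
-/
import Mathlib
import Fermat.Agent.Lib.EllRed.Basic

set_option autoImplicit false
set_option linter.unusedSectionVars false

namespace Fermat.Agent.EllRed

open WeierstrassCurve WeierstrassCurve.Affine IsLocalRing S05H65 S05H75

variable {K : Type*} [Field K] [DecidableEq K] {A : ValuationSubring K}
  {E : Affine K} {Ek : Affine (ResidueField A)}

/-- The reduction of a point: the origin and the points with non-integral `x`-coordinate go to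
the origin, the integral points are reduced coordinatewise. -/
noncomputable def red (h : IsReduction A E Ek) (hΔ : Ek.Δ ≠ 0) : E.Point → Ek.Point
  | .zero => .zero
  | .some x y hxy =>
      open Classical in
      if hx : x ∈ A then
        .some (res A x) (res A y) (h.nonsingular_res hΔ hxy.1 hx (h.mem_y hxy.1 hx))
      else .zero

variable (h : IsReduction A E Ek) (hΔ : Ek.Δ ≠ 0)

@[simp] lemma red_zero : red h hΔ 0 = 0 := rfl

lemma red_some_of_mem {x y : K} (hxy : E.Nonsingular x y) (hx : x ∈ A) :
    red h hΔ (.some x y hxy)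
      = .some (res A x) (res A y) (h.nonsingular_res hΔ hxy.1 hx (h.mem_y hxy.1 hx)) := by
  simp only [red, dif_pos hx]

lemma red_some_of_not_mem {x y : K} (hxy : E.Nonsingular x y) (hx : x ∉ A) :
    red h hΔ (.some x y hxy) = 0 := by
  simp only [red, dif_neg hx]
  rfl

/-- A point is *integral* if it is affine with integral `x`-coordinate. -/
def IsInt (A : ValuationSubring K) (P : E.Point) : Prop :=
  ∃ (x y : K) (hxy : E.Nonsingular x y), P = .some x y hxy ∧ x ∈ A

omit h hΔ in
lemma isInt_some {x y : K} (hxy : E.Nonsingular x y) :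
    IsInt A (Point.some x y hxy) ↔ x ∈ A := by
  constructor
  · rintro ⟨x', y', hxy', heq, hx'⟩
    rw [Point.some.injEq] at heq
    rw [heq.1]
    exact hx'
  · intro hx
    exact ⟨x, y, hxy, rfl, hx⟩

omit h hΔ in
lemma not_isInt_zero : ¬ IsInt A (0 : E.Point) := by
  rintro ⟨x, y, hxy, heq, -⟩
  exact Point.some_ne_zero hxy heq.symm

omit h hΔ in
/-- Every point is integral or in the kernel of reduction. -/
lemma isInt_or_inG1 (P : E.Point) : IsInt A P ∨ InG1 A.valuation P := by
  rcases P with _ | ⟨x, y, hxy⟩
  · right; left; rfl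
  · by_cases hx : x ∈ A
    · left; exact ⟨x, y, hxy, rfl, hx⟩
    · right; right
      rw [px_some]
      rw [← A.valuation_le_one_iff] at hx
      exact not_le.mp hx

omit h hΔ in
lemma not_isInt_iff_inG1 (P : E.Point) : ¬ IsInt A P ↔ InG1 A.valuation P := by
  constructor
  · intro hP
    exact (isInt_or_inG1 P).resolve_left hP
  · rintro (rfl | hv) hint
    · exact not_isInt_zero hint
    · obtain ⟨x, y, hxy, rfl, hx⟩ := hint
      rw [px_some] at hv
      rw [← A.valuation_le_one_iff] at hx
      exact absurd hx (not_le.mpr hv)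

/-- The kernel of reduction is `G1`. -/
lemma red_eq_zero_iff (P : E.Point) : red h hΔ P = 0 ↔ InG1 A.valuation P := by
  rcases P with _ | ⟨x, y, hxy⟩
  · constructor
    · intro _; left; rfl
    · intro _; rfl
  · by_cases hx : x ∈ A
    · rw [red_some_of_mem h hΔ hxy hx]
      constructor
      · intro h0
        exact absurd h0 (Point.some_ne_zero _)
      · intro hG
        exact absurd ⟨x, y, hxy, rfl, hx⟩ ((not_isInt_iff_inG1 _).mpr hG)
    · rw [red_some_of_not_mem h hΔ hxy hx]
      constructor
      · intro _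
        exact (not_isInt_iff_inG1 _).mp (fun hint => hx ((isInt_some hxy).mp hint))
      · intro _; rfl

lemma red_ne_zero_of_isInt {P : E.Point} (hP : IsInt A P) : red h hΔ P ≠ 0 := by
  intro h0
  exact (not_isInt_iff_inG1 P).mpr ((red_eq_zero_iff h hΔ P).mp h0) hP

include h in
/-- Reduction of `negY`. -/
lemma res_negY {x y : K} (hx : x ∈ A) (hy : y ∈ A) :
    res A (E.negY x y) = Ek.negY (res A x) (res A y) := by
  simp only [negY]
  rw [res_sub (sub_mem (neg_mem hy) (mul_mem h.mem_a₁ hx)) h.mem_a₃,
    res_sub (neg_mem hy) (mul_mem h.mem_a₁ hx), res_neg hy, res_mul h.mem_a₁ hx,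
    h.res_a₁, h.res_a₃]

include h in
lemma mem_negY {x y : K} (hx : x ∈ A) (hy : y ∈ A) : E.negY x y ∈ A := by
  simp only [negY]
  exact sub_mem (sub_mem (neg_mem hy) (mul_mem h.mem_a₁ hx)) h.mem_a₃

variable [DecidableEq (ResidueField A)]

omit h hΔ in
lemma isInt_neg {P : E.Point} (hP : IsInt A P) : IsInt A (-P) := by
  obtain ⟨x, y, hxy, rfl, hx⟩ := hP
  rw [Point.neg_some]
  exact (isInt_some _).mpr hx

/-- Reduction commutes with negation. -/
lemma red_neg (P : E.Point) : red h hΔ (-P) = -red h hΔ P := by
  rcases P with _ | ⟨x, y, hxy⟩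
  · rfl
  · by_cases hx : x ∈ A
    · have hy : y ∈ A := h.mem_y hxy.1 hx
      rw [Point.neg_some, red_some_of_mem h hΔ _ hx, red_some_of_mem h hΔ hxy hx, Point.neg_some,
        Point.some.injEq]
      exact ⟨rfl, res_negY h hx hy⟩
    · rw [Point.neg_some, red_some_of_not_mem h hΔ _ hx, red_some_of_not_mem h hΔ hxy hx,
        neg_zero]

end Fermat.Agent.EllRed
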