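/-
EllRed (helper75): the reduction map is compatible with the addition of two integral points whose
reductions are not opposite (generic addition), and the sum of two integral points with opposite
reductions lies in the kernel of reduction.
-/
import Mathlib
import Fermat.Agent.Lib.EllRed.Red

set_option autoImplicit false
set_option linter.unusedSectionVars false

namespace Fermat.Agent.EllRed

open WeierstrassCurve WeierstrassCurve.Affine IsLocalRing S05H65 S05H75

section Formula

/-- The numerator of the slope of the chord, in the form that survives `x₁ = x₂`. -/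
def slopeNum {R : Type*} [CommRing R] (W : Affine R) (x₁ x₂ y₁ : R) : R :=
  x₁ ^ 2 + x₁ * x₂ + x₂ ^ 2 + W.a₂ * (x₁ + x₂) + W.a₄ - W.a₁ * y₁

lemma map_slopeNum {R S : Type*} [CommRing R] [CommRing S] (W : Affine R) (f : R →+* S)
    (x₁ x₂ y₁ : R) :
    slopeNum (WeierstrassCurve.map W f) (f x₁) (f x₂) (f y₁) = f (slopeNum W x₁ x₂ y₁) := by
  simp only [slopeNum, WeierstrassCurve.map, map_add, map_sub, map_mul, map_pow]

variable {F : Type*} [Field F] [DecidableEq F] {W : Affine F}

/-- `slope * (y₁ - negY x₂ y₂) = slopeNum`. -/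
lemma slope_mul_sub_negY {x₁ x₂ y₁ y₂ : F} (h₁ : W.Equation x₁ y₁) (h₂ : W.Equation x₂ y₂)
    (hxy : ¬(x₁ = x₂ ∧ y₁ = W.negY x₂ y₂)) :
    W.slope x₁ x₂ y₁ y₂ * (y₁ - W.negY x₂ y₂) = slopeNum W x₁ x₂ y₁ := by
  by_cases hx : x₁ = x₂
  · have hy : y₁ ≠ W.negY x₂ y₂ := fun hy => hxy ⟨hx, hy⟩
    have hyy : y₁ = y₂ := Y_eq_of_Y_ne h₁ h₂ hx hy
    subst hx
    subst hyy
    rw [slope_of_Y_ne rfl hy, div_mul_cancel₀ _ (sub_ne_zero.mpr hy)]
    simp only [slopeNum]
    ring
  · rw [slope_of_X_ne hx]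
    have hx' : x₁ - x₂ ≠ 0 := sub_ne_zero.mpr hx
    rw [equation_iff] at h₁ h₂
    rw [div_mul_eq_mul_div, div_eq_iff hx']
    simp only [slopeNum, negY]
    linear_combination h₁ - h₂

lemma slope_mul_sub_X {x₁ x₂ y₁ y₂ : F} (hx : x₁ ≠ x₂) :
    W.slope x₁ x₂ y₁ y₂ * (x₁ - x₂) = y₁ - y₂ := by
  rw [slope_of_X_ne hx, div_mul_cancel₀ _ (sub_ne_zero.mpr hx)]

end Formula

variable {K : Type*} [Field K] [DecidableEq K] {A : ValuationSubring K}
  {E : Affine K} {Ek : Affine (ResidueField A)} [DecidableEq (ResidueField A)]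

variable (h : IsReduction A E Ek)

include h in
lemma equation_intModel {x y : A} (hxy : E.Equation (x : K) (y : K)) :
    (h.intModel).Equation x y := by
  rw [← Affine.map_equation (W := h.intModel) (f := A.subtype) Subtype.val_injective]
  exact hxy

include h in
lemma equation_residue {x y : A} (hxy : E.Equation (x : K) (y : K)) :
    Ek.Equation (residue A x) (residue A y) := by
  have h2 := Affine.Equation.map (residue A) (equation_intModel h hxy)
  rwa [h.intModel_map_residue] at h2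

include h in
lemma coe_negY (x y : A) : ((h.intModel.negY x y : A) : K) = E.negY x y := by
  have := Affine.map_negY (W' := h.intModel) (f := A.subtype) (x := x) (y := y)
  first | rw [h.intModel_map_subtype] at this | rw [h.intModel_map_subtype'] at this
  exact this.symm

include h in
lemma residue_negY (x y : A) :
    residue A (h.intModel.negY x y) = Ek.negY (residue A x) (residue A y) := by
  have := Affine.map_negY (W' := h.intModel) (f := residue A) (x := x) (y := y)
  first | rw [h.intModel_map_residue] at this | rw [h.intModel_map_residue'] at this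
  exact this.symm

include h in
lemma coe_slopeNum (x₁ x₂ y₁ : A) :
    ((slopeNum h.intModel x₁ x₂ y₁ : A) : K) = slopeNum E x₁ x₂ y₁ := by
  have := map_slopeNum h.intModel A.subtype x₁ x₂ y₁
  first | rw [h.intModel_map_subtype] at this | rw [h.intModel_map_subtype'] at this
  exact this.symm

include h in
lemma residue_slopeNum (x₁ x₂ y₁ : A) :
    residue A (slopeNum h.intModel x₁ x₂ y₁)
      = slopeNum Ek (residue A x₁) (residue A x₂) (residue A y₁) := by
  have := map_slopeNum h.intModel (residue A) x₁ x₂ y₁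
  first | rw [h.intModel_map_residue] at this | rw [h.intModel_map_residue'] at this
  exact this.symm

include h in
lemma coe_addX (x₁ x₂ l : A) : ((h.intModel.addX x₁ x₂ l : A) : K) = E.addX x₁ x₂ l := by
  have := Affine.map_addX (W' := h.intModel) (f := A.subtype) (x₁ := x₁) (x₂ := x₂) (ℓ := l)
  first | rw [h.intModel_map_subtype] at this | rw [h.intModel_map_subtype'] at this
  exact this.symm

include h in
lemma residue_addX (x₁ x₂ l : A) :
    residue A (h.intModel.addX x₁ x₂ l) = Ek.addX (residue A x₁) (residue A x₂) (residue A l) := by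
  have := Affine.map_addX (W' := h.intModel) (f := residue A) (x₁ := x₁) (x₂ := x₂) (ℓ := l)
  first | rw [h.intModel_map_residue] at this | rw [h.intModel_map_residue'] at this
  exact this.symm

include h in
lemma coe_addY (x₁ x₂ y₁ l : A) :
    ((h.intModel.addY x₁ x₂ y₁ l : A) : K) = E.addY x₁ x₂ y₁ l := by
  have := Affine.map_addY (W' := h.intModel) (f := A.subtype) (x₁ := x₁) (x₂ := x₂) (y₁ := y₁)
    (ℓ := l)
  first | rw [h.intModel_map_subtype] at this | rw [h.intModel_map_subtype'] at this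
  exact this.symm

include h in
lemma residue_addY (x₁ x₂ y₁ l : A) :
    residue A (h.intModel.addY x₁ x₂ y₁ l)
      = Ek.addY (residue A x₁) (residue A x₂) (residue A y₁) (residue A l) := by
  have := Affine.map_addY (W' := h.intModel) (f := residue A) (x₁ := x₁) (x₂ := x₂) (y₁ := y₁)
    (ℓ := l)
  first | rw [h.intModel_map_residue] at this | rw [h.intModel_map_residue'] at this
  exact this.symm

include h in
/-- If the reductions are not opposite, the points are not opposite. -/
lemma not_opp_of_residue {x₁ y₁ x₂ y₂ : A}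
    (hne : ¬(residue A x₁ = residue A x₂ ∧
      residue A y₁ = Ek.negY (residue A x₂) (residue A y₂))) :
    ¬((x₁ : K) = x₂ ∧ (y₁ : K) = E.negY x₂ y₂) := by
  rintro ⟨e1, e2⟩
  apply hne
  have hx : x₁ = x₂ := Subtype.ext e1
  have hy : y₁ = h.intModel.negY x₂ y₂ := by
    apply Subtype.ext
    rw [e2, coe_negY h]
  refine ⟨by rw [hx], ?_⟩
  rw [← residue_negY h, ← hy]

omit [DecidableEq K] [DecidableEq (ResidueField A)] in
lemma isUnit_of_residue_ne_zero {d : A} (hd : residue A d ≠ 0) : IsUnit d := by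
  by_contra hu
  apply hd
  rw [IsLocalRing.residue_eq_zero_iff]
  exact (IsLocalRing.mem_maximalIdeal d).mpr hu

include h in
/-- The slope of the chord/tangent through two integral points with non-opposite reductions is
integral and reduces to the slope of the reductions. -/
theorem exists_slope_lift {x₁ y₁ x₂ y₂ : A}
    (h₁ : E.Equation (x₁ : K) (y₁ : K)) (h₂ : E.Equation (x₂ : K) (y₂ : K))
    (hne : ¬(residue A x₁ = residue A x₂ ∧
      residue A y₁ = Ek.negY (residue A x₂) (residue A y₂))) :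
    ∃ lam : A, (lam : K) = E.slope x₁ x₂ y₁ y₂ ∧
      residue A lam = Ek.slope (residue A x₁) (residue A x₂) (residue A y₁) (residue A y₂) := by
  have hxyK := not_opp_of_residue h hne
  have k₁ := equation_residue h h₁
  have k₂ := equation_residue h h₂
  by_cases hX : residue A x₁ = residue A x₂
  · have hY : residue A y₁ ≠ Ek.negY (residue A x₂) (residue A y₂) := fun hY => hne ⟨hX, hY⟩
    set D : A := y₁ - h.intModel.negY x₂ y₂ with hD
    have hDres : residue A D = residue A y₁ - Ek.negY (residue A x₂) (residue A y₂) := by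
      rw [hD, map_sub, residue_negY h]
    have hDne : residue A D ≠ 0 := by
      rw [hDres]
      exact sub_ne_zero.mpr hY
    obtain ⟨u, hu⟩ := isUnit_of_residue_ne_zero hDne
    have hDK : ((D : A) : K) = (y₁ : K) - E.negY x₂ y₂ := by
      rw [hD]
      push_cast
      rw [coe_negY h]
    have hDK0 : ((D : A) : K) ≠ 0 := by
      intro h0
      apply hDne
      have : D = 0 := Subtype.ext h0
      rw [this, map_zero]
    refine ⟨slopeNum h.intModel x₁ x₂ y₁ * ((u⁻¹ : Aˣ) : A), ?_, ?_⟩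
    · have hinv : (((u⁻¹ : Aˣ) : A) : K) = ((D : A) : K)⁻¹ := by
        have h1 : ((u : A) : K) * (((u⁻¹ : Aˣ) : A) : K) = 1 := by
          rw [← MulMemClass.coe_mul, Units.mul_inv]
          rfl
        rw [hu] at h1
        exact eq_inv_of_mul_eq_one_right h1
      push_cast
      rw [coe_slopeNum h, hinv, ← slope_mul_sub_negY h₁ h₂ hxyK, ← hDK,
        mul_assoc, mul_inv_cancel₀ hDK0, mul_one]
    · have hinv : residue A ((u⁻¹ : Aˣ) : A) = (residue A D)⁻¹ := by
        have h1 : residue A (u : A) * residue A ((u⁻¹ : Aˣ) : A) = 1 := by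
          rw [← map_mul, Units.mul_inv, map_one]
        rw [hu] at h1
        exact eq_inv_of_mul_eq_one_right h1
      rw [map_mul, residue_slopeNum h, hinv, ← slope_mul_sub_negY k₁ k₂ hne, ← hDres,
        mul_assoc, mul_inv_cancel₀ hDne, mul_one]
  · set D : A := x₁ - x₂ with hD
    have hDres : residue A D = residue A x₁ - residue A x₂ := by
      rw [hD, map_sub]
    have hDne : residue A D ≠ 0 := by
      rw [hDres]
      exact sub_ne_zero.mpr hX
    obtain ⟨u, hu⟩ := isUnit_of_residue_ne_zero hDne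
    have hxK : (x₁ : K) ≠ x₂ := by
      intro e
      apply hX
      rw [Subtype.ext e]
    have hDK : ((D : A) : K) = (x₁ : K) - x₂ := by
      rw [hD]
      push_cast
      rfl
    have hDK0 : ((D : A) : K) ≠ 0 := by
      rw [hDK]
      exact sub_ne_zero.mpr hxK
    refine ⟨(y₁ - y₂) * ((u⁻¹ : Aˣ) : A), ?_, ?_⟩
    · have hinv : (((u⁻¹ : Aˣ) : A) : K) = ((D : A) : K)⁻¹ := by
        have h1 : ((u : A) : K) * (((u⁻¹ : Aˣ) : A) : K) = 1 := by
          rw [← MulMemClass.coe_mul, Units.mul_inv]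
          rfl
        rw [hu] at h1
        exact eq_inv_of_mul_eq_one_right h1
      push_cast
      rw [hinv, hDK, slope_of_X_ne hxK, div_eq_mul_inv]
    · have hinv : residue A ((u⁻¹ : Aˣ) : A) = (residue A D)⁻¹ := by
        have h1 : residue A (u : A) * residue A ((u⁻¹ : Aˣ) : A) = 1 := by
          rw [← map_mul, Units.mul_inv, map_one]
        rw [hu] at h1
        exact eq_inv_of_mul_eq_one_right h1
      rw [map_mul, map_sub, hinv, hDres, slope_of_X_ne hX, div_eq_mul_inv]

variable (hΔ : Ek.Δ ≠ 0)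

/-- **Generic addition.** -/
theorem red_add_of_ne {x₁ y₁ x₂ y₂ : K} (h₁ : E.Nonsingular x₁ y₁) (h₂ : E.Nonsingular x₂ y₂)
    (hx₁ : x₁ ∈ A) (hx₂ : x₂ ∈ A)
    (hne : ¬(res A x₁ = res A x₂ ∧ res A y₁ = Ek.negY (res A x₂) (res A y₂))) :
    IsInt A (Point.some x₁ y₁ h₁ + Point.some x₂ y₂ h₂) ∧
      red h hΔ (Point.some x₁ y₁ h₁ + Point.some x₂ y₂ h₂)
        = red h hΔ (Point.some x₁ y₁ h₁) + red h hΔ (Point.some x₂ y₂ h₂) := by
  have hy₁ : y₁ ∈ A := h.mem_y h₁.1 hx₁
  have hy₂ : y₂ ∈ A := h.mem_y h₂.1 hx₂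
  rw [res_of_mem hx₁, res_of_mem hx₂, res_of_mem hy₁, res_of_mem hy₂] at hne
  obtain ⟨lam, hlamK, hlamk⟩ := exists_slope_lift h (x₁ := ⟨x₁, hx₁⟩) (y₁ := ⟨y₁, hy₁⟩)
    (x₂ := ⟨x₂, hx₂⟩) (y₂ := ⟨y₂, hy₂⟩) h₁.1 h₂.1 hne
  have hxyK : ¬(x₁ = x₂ ∧ y₁ = E.negY x₂ y₂) :=
    not_opp_of_residue h (x₁ := ⟨x₁, hx₁⟩) (y₁ := ⟨y₁, hy₁⟩) (x₂ := ⟨x₂, hx₂⟩)
      (y₂ := ⟨y₂, hy₂⟩) hne
  have hX3 : E.addX x₁ x₂ (E.slope x₁ x₂ y₁ y₂)
      = ((h.intModel.addX ⟨x₁, hx₁⟩ ⟨x₂, hx₂⟩ lam : A) : K) := by
    rw [coe_addX h, hlamK]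
  have hY3 : E.addY x₁ x₂ y₁ (E.slope x₁ x₂ y₁ y₂)
      = ((h.intModel.addY ⟨x₁, hx₁⟩ ⟨x₂, hx₂⟩ ⟨y₁, hy₁⟩ lam : A) : K) := by
    rw [coe_addY h, hlamK]
  have hx₃ : E.addX x₁ x₂ (E.slope x₁ x₂ y₁ y₂) ∈ A := by
    rw [hX3]
    exact Subtype.property _
  rw [Point.add_some hxyK]
  refine ⟨(isInt_some _).mpr hx₃, ?_⟩
  rw [red_some_of_mem h hΔ _ hx₃, red_some_of_mem h hΔ h₁ hx₁, red_some_of_mem h hΔ h₂ hx₂]
  have hne' : ¬(res A x₁ = res A x₂ ∧ res A y₁ = Ek.negY (res A x₂) (res A y₂)) := by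
    rw [res_of_mem hx₁, res_of_mem hx₂, res_of_mem hy₁, res_of_mem hy₂]
    exact hne
  rw [Point.add_some hne', Point.some.injEq]
  constructor
  · rw [hX3, res_coe, residue_addX h, hlamk, res_of_mem hx₁, res_of_mem hx₂, res_of_mem hy₁,
      res_of_mem hy₂]
  · rw [hY3, res_coe, residue_addY h, hlamk, res_of_mem hx₁, res_of_mem hx₂, res_of_mem hy₁,
      res_of_mem hy₂]

end Fermat.Agent.EllRed
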