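/-
EllRed (helper75): the sum of two integral points with opposite reductions lies in the kernel of
reduction.
-/
import Mathlib
import Fermat.Agent.Lib.EllRed.Add

set_option autoImplicit false
set_option linter.unusedSectionVars false

namespace Fermat.Agent.EllRed

open WeierstrassCurve WeierstrassCurve.Affine IsLocalRing S05H65 S05H75

section Val

variable {K : Type*} [Field K] {Γ₀ : Type*} [LinearOrderedCommGroupWithZero Γ₀]
  (v : Valuation K Γ₀)

lemma one_lt_val_of_mul {a b : K} (hab : v (a * b) = 1) (hb : v b < 1) : 1 < v a := by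
  by_contra hle
  push Not at hle
  have h1 : v (a * b) ≤ v b := val_le_mul v hle le_rfl
  rw [hab] at h1
  exact absurd hb (not_lt.mpr h1)

lemma lt_sq_of_one_lt {c : Γ₀} (hc : 1 < c) : c < c ^ 2 := by
  have hc0 : 0 < c := lt_trans zero_lt_one hc
  calc c = 1 * c := (one_mul c).symm
    _ < c * c := mul_lt_mul_of_pos_right hc hc0
    _ = c ^ 2 := (pow_two c).symm

/-- If the slope is non-integral then so is the `x`-coordinate of the sum. -/
lemma one_lt_val_addX {E : Affine K} (ha₁ : v E.a₁ ≤ 1) (ha₂ : v E.a₂ ≤ 1) {x₁ x₂ l : K}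
    (hx₁ : v x₁ ≤ 1) (hx₂ : v x₂ ≤ 1) (hl : 1 < v l) : 1 < v (E.addX x₁ x₂ l) := by
  have hsq : v l < v (l ^ 2) := by
    rw [map_pow]
    exact lt_sq_of_one_lt hl
  have hrest : v (E.a₁ * l - E.a₂ - x₁ - x₂) ≤ v l := by
    refine v.map_sub_le (v.map_sub_le (v.map_sub_le ?_ ?_) ?_) ?_
    · exact val_le_mul v ha₁ le_rfl
    · exact ha₂.trans hl.le
    · exact hx₁.trans hl.le
    · exact hx₂.trans hl.le
  have heq : E.addX x₁ x₂ l = l ^ 2 + (E.a₁ * l - E.a₂ - x₁ - x₂) := by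
    simp only [addX]
    ring
  rw [heq, v.map_add_eq_of_lt_left (lt_of_le_of_lt hrest hsq)]
  exact lt_trans hl hsq

end Val

variable {K : Type*} [Field K] [DecidableEq K] {A : ValuationSubring K}
  {E : Affine K} {Ek : Affine (ResidueField A)} [DecidableEq (ResidueField A)]

variable (h : IsReduction A E Ek) (hΔ : Ek.Δ ≠ 0)

include h in
lemma mem_slopeNum {x₁ x₂ y₁ : K} (hx₁ : x₁ ∈ A) (hx₂ : x₂ ∈ A) (hy₁ : y₁ ∈ A) :
    slopeNum E x₁ x₂ y₁ ∈ A := by
  have := coe_slopeNum h ⟨x₁, hx₁⟩ ⟨x₂, hx₂⟩ ⟨y₁, hy₁⟩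
  rw [← this]
  exact Subtype.property _

include h in
lemma res_slopeNum {x₁ x₂ y₁ : K} (hx₁ : x₁ ∈ A) (hx₂ : x₂ ∈ A) (hy₁ : y₁ ∈ A) :
    res A (slopeNum E x₁ x₂ y₁) = slopeNum Ek (res A x₁) (res A x₂) (res A y₁) := by
  have := coe_slopeNum h ⟨x₁, hx₁⟩ ⟨x₂, hx₂⟩ ⟨y₁, hy₁⟩
  rw [← this, res_coe, residue_slopeNum h, res_of_mem hx₁, res_of_mem hx₂, res_of_mem hy₁]

include h hΔ in
/-- **Opposite reductions.** -/
theorem inG1_add_of_opp {x₁ y₁ x₂ y₂ : K} (h₁ : E.Nonsingular x₁ y₁) (h₂ : E.Nonsingular x₂ y₂)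
    (hx₁ : x₁ ∈ A) (hx₂ : x₂ ∈ A)
    (hopp : res A x₁ = res A x₂ ∧ res A y₁ = Ek.negY (res A x₂) (res A y₂)) :
    InG1 A.valuation (Point.some x₁ y₁ h₁ + Point.some x₂ y₂ h₂) := by
  have hy₁ : y₁ ∈ A := h.mem_y h₁.1 hx₁
  have hy₂ : y₂ ∈ A := h.mem_y h₂.1 hx₂
  by_cases hxyK : x₁ = x₂ ∧ y₁ = E.negY x₂ y₂
  · left
    exact Point.add_of_Y_eq hxyK.1 hxyK.2
  · right
    rw [Point.add_some hxyK, px_some]
    have hnegY : E.negY x₂ y₂ ∈ A := mem_negY h hx₂ hy₂
    -- the two denominators are non-units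
    have hD : A.valuation (y₁ - E.negY x₂ y₂) < 1 := by
      rw [← res_eq_zero_iff (sub_mem hy₁ hnegY), res_sub hy₁ hnegY, res_negY h hx₂ hy₂, hopp.2,
        sub_self]
    have hX : A.valuation (x₁ - x₂) < 1 := by
      rw [← res_eq_zero_iff (sub_mem hx₁ hx₂), res_sub hx₁ hx₂, hopp.1, sub_self]
    -- the slope is non-integral
    have hl : 1 < A.valuation (E.slope x₁ x₂ y₁ y₂) := by
      have hns := h.nonsingular_res hΔ h₁.1 hx₁ hy₁
      rcases ((nonsingular_iff' _ _).mp hns).2 with hFx | hFy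
      · -- the numerator `slopeNum` is a unit
        have hN : A.valuation (slopeNum E x₁ x₂ y₁) = 1 := by
          rw [← res_ne_zero_iff (mem_slopeNum h hx₁ hx₂ hy₁), res_slopeNum h hx₁ hx₂ hy₁,
            ← hopp.1]
          intro h0
          apply hFx
          simp only [slopeNum] at h0
          linear_combination -h0
        apply one_lt_val_of_mul A.valuation (b := y₁ - E.negY x₂ y₂) _ hD
        rw [slope_mul_sub_negY h₁.1 h₂.1 hxyK, hN]
      · -- `y₁ - y₂` is a unit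
        have hY : A.valuation (y₁ - y₂) = 1 := by
          rw [← res_ne_zero_iff (sub_mem hy₁ hy₂), res_sub hy₁ hy₂]
          intro h0
          apply hFy
          have e2 := hopp.2
          simp only [negY] at e2
          rw [← hopp.1] at e2
          linear_combination h0 + e2
        by_cases hx : x₁ = x₂
        · exfalso
          have hy : y₁ ≠ E.negY x₂ y₂ := fun hy => hxyK ⟨hx, hy⟩
          have hyy : y₁ = y₂ := Y_eq_of_Y_ne h₁.1 h₂.1 hx hy
          rw [hyy, sub_self, map_zero] at hY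
          exact zero_ne_one hY
        · apply one_lt_val_of_mul A.valuation (b := x₁ - x₂) _ hX
          rw [slope_mul_sub_X hx, hY]
    exact one_lt_val_addX A.valuation h.val_a₁ h.val_a₂ ((A.valuation_le_one_iff _).2 hx₁)
      ((A.valuation_le_one_iff _).2 hx₂) hl

end Fermat.Agent.EllRed
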