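/-
EllRed (helper75): the reduction map is a group homomorphism `E(K) →+ Ek(k)`, with kernel `G1`,
injective on torsion of order prime to the residue characteristic.
-/
import Mathlib
import Fermat.Agent.Lib.EllRed.Opp

set_option autoImplicit false
set_option linter.unusedSectionVars false

namespace Fermat.Agent.EllRed

open WeierstrassCurve WeierstrassCurve.Affine IsLocalRing S05H65 S05H75

variable {K : Type*} [Field K] [DecidableEq K] {A : ValuationSubring K}
  {E : Affine K} {Ek : Affine (ResidueField A)} [DecidableEq (ResidueField A)]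

variable (h : IsReduction A E Ek) (hΔ : Ek.Δ ≠ 0)

include h in
lemma inG1_add' {P Q : E.Point} (hP : InG1 A.valuation P) (hQ : InG1 A.valuation Q) :
    InG1 A.valuation (P + Q) :=
  inG1_add A.valuation h.val_b₂ h.val_b₄ h.val_b₆ h.val_b₈ hP hQ

include h in
lemma inG1_sub' {P Q : E.Point} (hP : InG1 A.valuation P) (hQ : InG1 A.valuation Q) :
    InG1 A.valuation (P - Q) :=
  inG1_sub A.valuation h.val_b₂ h.val_b₄ h.val_b₆ h.val_b₈ hP hQ

/-- Addition of two integral points. -/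
theorem red_add_of_isInt {P Q : E.Point} (hP : IsInt A P) (hQ : IsInt A Q) :
    red h hΔ (P + Q) = red h hΔ P + red h hΔ Q := by
  obtain ⟨x₁, y₁, h₁, rfl, hx₁⟩ := hP
  obtain ⟨x₂, y₂, h₂, rfl, hx₂⟩ := hQ
  by_cases hopp : res A x₁ = res A x₂ ∧ res A y₁ = Ek.negY (res A x₂) (res A y₂)
  · rw [(red_eq_zero_iff h hΔ _).mpr (inG1_add_of_opp h hΔ h₁ h₂ hx₁ hx₂ hopp),
      red_some_of_mem h hΔ h₁ hx₁, red_some_of_mem h hΔ h₂ hx₂,
      Point.add_of_Y_eq hopp.1 hopp.2]
  · exact (red_add_of_ne h hΔ h₁ h₂ hx₁ hx₂ hopp).2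

/-- Adding a point of the kernel of reduction does not change the reduction. -/
theorem red_add_of_inG1_left {P Q : E.Point} (hP : InG1 A.valuation P) (hQ : IsInt A Q) :
    red h hΔ (P + Q) = red h hΔ Q := by
  have hR : IsInt A (P + Q) := by
    by_contra hR
    rw [not_isInt_iff_inG1] at hR
    have hQ' : InG1 A.valuation (P + Q - P) := inG1_sub' h hR hP
    rw [add_sub_cancel_left] at hQ'
    exact (not_isInt_iff_inG1 Q).mpr hQ' hQ
  by_contra hne
  obtain ⟨x₃, y₃, h₃, hR3, hx₃⟩ := hR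
  obtain ⟨x₂, y₂, h₂, rfl, hx₂⟩ := hQ
  have hy₂ : y₂ ∈ A := h.mem_y h₂.1 hx₂
  have hy₃ : y₃ ∈ A := h.mem_y h₃.1 hx₃
  rw [hR3, red_some_of_mem h hΔ h₃ hx₃, red_some_of_mem h hΔ h₂ hx₂, Point.some.injEq] at hne
  have hne' : ¬(res A x₃ = res A x₂ ∧
      res A y₃ = Ek.negY (res A x₂) (res A (E.negY x₂ y₂))) := by
    rw [res_negY h hx₂ hy₂, negY_negY]
    exact hne
  have hint := (red_add_of_ne h hΔ h₃ ((nonsingular_neg _ _).mpr h₂) hx₃ hx₂ hne').1
  have hsum : Point.some x₃ y₃ h₃ + Point.some x₂ (E.negY x₂ y₂) ((nonsingular_neg _ _).mpr h₂)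
      = P := by
    have hneg : Point.some x₂ (E.negY x₂ y₂) ((nonsingular_neg _ _).mpr h₂)
        = -Point.some x₂ y₂ h₂ := (Point.neg_some h₂).symm
    rw [hneg, ← hR3, add_neg_cancel_right]
  rw [hsum] at hint
  exact (not_isInt_iff_inG1 P).mpr hP hint

/-- **The reduction map is additive.** -/
theorem red_add (P Q : E.Point) : red h hΔ (P + Q) = red h hΔ P + red h hΔ Q := by
  rcases isInt_or_inG1 (A := A) P with hP | hP
  · rcases isInt_or_inG1 (A := A) Q with hQ | hQ
    · exact red_add_of_isInt h hΔ hP hQ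
    · rw [add_comm P Q, red_add_of_inG1_left h hΔ hQ hP, (red_eq_zero_iff h hΔ Q).mpr hQ,
        add_zero]
  · rcases isInt_or_inG1 (A := A) Q with hQ | hQ
    · rw [red_add_of_inG1_left h hΔ hP hQ, (red_eq_zero_iff h hΔ P).mpr hP, zero_add]
    · rw [(red_eq_zero_iff h hΔ P).mpr hP, (red_eq_zero_iff h hΔ Q).mpr hQ,
        (red_eq_zero_iff h hΔ _).mpr (inG1_add' h hP hQ), add_zero]

/-- The reduction homomorphism. -/
noncomputable def redHom : E.Point →+ Ek.Point where
  toFun := red h hΔ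
  map_zero' := rfl
  map_add' := red_add h hΔ

@[simp] lemma redHom_apply (P : E.Point) : redHom h hΔ P = red h hΔ P := rfl

lemma redHom_eq_zero_iff (P : E.Point) : redHom h hΔ P = 0 ↔ InG1 A.valuation P :=
  red_eq_zero_iff h hΔ P

/-- The reduction homomorphism is injective on `n`-torsion for `n` a unit of `A`. -/
theorem eq_zero_of_redHom_eq_zero {n : ℕ} (hn : A.valuation (n : K) = 1) {P : E.Point}
    (hnP : n • P = 0) (hP : redHom h hΔ P = 0) : P = 0 :=
  inG1_torsion_free A.valuation h.val_b₂ h.val_b₄ h.val_b₆ h.val_b₈ hn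
    ((redHom_eq_zero_iff h hΔ P).mp hP) hnP

end Fermat.Agent.EllRed
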