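/-
EllRed (helper75): specialisation to an integral Weierstrass model `W / ℤ` and a valuation subring
of a field of characteristic zero lying over a prime `ℓ` of good reduction.
-/
import Mathlib
import Fermat.Prelude.Def_FLTPrelim_Modularity
import Fermat.Prelude.Def_FLTPrelim_Ramification
import Fermat.Agent.Lib.EllRed.Hom

set_option autoImplicit false
set_option linter.unusedSectionVars false

namespace Fermat.Agent.EllRed

open WeierstrassCurve WeierstrassCurve.Affine IsLocalRing

section Res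

variable {K : Type*} [Field K] {A : ValuationSubring K}

lemma res_intCast (n : ℤ) : res A (n : K) = (n : ResidueField A) := by
  have hn : (n : K) ∈ A := intCast_mem A n
  rw [res_of_mem hn]
  have : (⟨(n : K), hn⟩ : A) = (n : A) := by
    apply Subtype.ext
    simp
  rw [this, map_intCast]

/-- An integer prime to `ℓ` is a unit at a valuation subring over `ℓ`. -/
lemma valuation_natCast_eq_one {ℓ : ℕ} (hℓ : ℓ.Prime) (hA : A.LiesOverPrime ℓ) {n : ℕ}
    (hn : ¬ ℓ ∣ n) : A.valuation (n : K) = 1 := by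
  have hℓv : A.valuation (ℓ : K) < 1 := hA
  have hle : A.valuation (n : K) ≤ 1 := (A.valuation_le_one_iff _).2 (natCast_mem A n)
  rcases lt_or_eq_of_le hle with hlt | heq
  · exfalso
    have hcop : Nat.Coprime ℓ n := (Nat.Prime.coprime_iff_not_dvd hℓ).mpr hn
    have hcop' : IsCoprime (ℓ : ℤ) (n : ℤ) := Nat.isCoprime_iff_coprime.mpr hcop
    obtain ⟨a, b, hab⟩ := hcop'
    have h1 : ((a : K)) * (ℓ : K) + (b : K) * (n : K) = 1 := by
      have := congrArg (Int.cast : ℤ → K) hab
      push_cast at this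
      exact this
    have ha : A.valuation (a : K) ≤ 1 := (A.valuation_le_one_iff _).2 (intCast_mem A a)
    have hb : A.valuation (b : K) ≤ 1 := (A.valuation_le_one_iff _).2 (intCast_mem A b)
    have h2 : A.valuation ((a : K) * (ℓ : K) + (b : K) * (n : K)) < 1 := by
      apply Valuation.map_add_lt
      · rw [map_mul]
        exact lt_of_le_of_lt (mul_le_of_le_one_left' ha) hℓv
      · rw [map_mul]
        exact lt_of_le_of_lt (mul_le_of_le_one_left' hb) hlt
    rw [h1, map_one] at h2
    exact lt_irrefl _ h2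
  · exact heq

end Res

section Model

variable {K : Type*} [Field K] [Algebra ℚ K] (A : ValuationSubring K)
  (W : WeierstrassCurve ℤ) (ℓ : ℕ) [Fact ℓ.Prime] [Algebra (ZMod ℓ) (ResidueField A)]

lemma algebraMap_intCast_rat (n : ℤ) : algebraMap ℚ K ((Int.castRingHom ℚ) n) = (n : K) := by
  simp

lemma algebraMap_intCast_zmod (n : ℤ) :
    algebraMap (ZMod ℓ) (ResidueField A) ((Int.castRingHom (ZMod ℓ)) n)
      = (n : ResidueField A) := by
  simp

/-- The reduction of an integral model. -/
theorem isReduction_of_model :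
    IsReduction A ((W.map (Int.castRingHom ℚ))⁄K) ((W.reductionMod ℓ)⁄(ResidueField A)) where
  mem_a₁ := by
    show algebraMap ℚ K ((Int.castRingHom ℚ) W.a₁) ∈ A
    rw [algebraMap_intCast_rat]; exact intCast_mem A _
  mem_a₂ := by
    show algebraMap ℚ K ((Int.castRingHom ℚ) W.a₂) ∈ A
    rw [algebraMap_intCast_rat]; exact intCast_mem A _
  mem_a₃ := by
    show algebraMap ℚ K ((Int.castRingHom ℚ) W.a₃) ∈ A
    rw [algebraMap_intCast_rat]; exact intCast_mem A _
  mem_a₄ := by
    show algebraMap ℚ K ((Int.castRingHom ℚ) W.a₄) ∈ A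
    rw [algebraMap_intCast_rat]; exact intCast_mem A _
  mem_a₆ := by
    show algebraMap ℚ K ((Int.castRingHom ℚ) W.a₆) ∈ A
    rw [algebraMap_intCast_rat]; exact intCast_mem A _
  res_a₁ := by
    show res A (algebraMap ℚ K ((Int.castRingHom ℚ) W.a₁))
      = algebraMap (ZMod ℓ) (ResidueField A) ((Int.castRingHom (ZMod ℓ)) W.a₁)
    rw [algebraMap_intCast_rat, algebraMap_intCast_zmod, res_intCast]
  res_a₂ := by
    show res A (algebraMap ℚ K ((Int.castRingHom ℚ) W.a₂))
      = algebraMap (ZMod ℓ) (ResidueField A) ((Int.castRingHom (ZMod ℓ)) W.a₂)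
    rw [algebraMap_intCast_rat, algebraMap_intCast_zmod, res_intCast]
  res_a₃ := by
    show res A (algebraMap ℚ K ((Int.castRingHom ℚ) W.a₃))
      = algebraMap (ZMod ℓ) (ResidueField A) ((Int.castRingHom (ZMod ℓ)) W.a₃)
    rw [algebraMap_intCast_rat, algebraMap_intCast_zmod, res_intCast]
  res_a₄ := by
    show res A (algebraMap ℚ K ((Int.castRingHom ℚ) W.a₄))
      = algebraMap (ZMod ℓ) (ResidueField A) ((Int.castRingHom (ZMod ℓ)) W.a₄)
    rw [algebraMap_intCast_rat, algebraMap_intCast_zmod, res_intCast]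
  res_a₆ := by
    show res A (algebraMap ℚ K ((Int.castRingHom ℚ) W.a₆))
      = algebraMap (ZMod ℓ) (ResidueField A) ((Int.castRingHom (ZMod ℓ)) W.a₆)
    rw [algebraMap_intCast_rat, algebraMap_intCast_zmod, res_intCast]

/-- Good reduction: the reduced curve has nonzero discriminant. -/
theorem Δ_ne_zero_of_good (hgood : W.IsGoodPrimeFor ℓ) :
    ((W.reductionMod ℓ)⁄(ResidueField A)).Δ ≠ 0 := by
  have h1 : ((W.reductionMod ℓ)⁄(ResidueField A)).Δ
      = algebraMap (ZMod ℓ) (ResidueField A) (W.reductionMod ℓ).Δ :=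
    WeierstrassCurve.map_Δ (W.reductionMod ℓ) (algebraMap (ZMod ℓ) (ResidueField A))
  have h2 : (W.reductionMod ℓ).Δ = ((W.Δ : ℤ) : ZMod ℓ) :=
    WeierstrassCurve.map_Δ W (Int.castRingHom (ZMod ℓ))
  rw [h1, h2]
  intro h0
  have h3 : ((W.Δ : ℤ) : ZMod ℓ) = 0 := by
    apply (algebraMap (ZMod ℓ) (ResidueField A)).injective
    rw [h0, map_zero]
  exact hgood ((ZMod.intCast_zmod_eq_zero_iff_dvd _ _).mp h3)

end Model

end Fermat.Agent.EllRed
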