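/-
EllRed (helper75): the action of the decomposition group on residues; Frobenius elements.
-/
import Mathlib
import Fermat.Prelude.Def_EllipticCurve_FrobeniusTrace
import Fermat.Agent.Lib.EllRed.Res

set_option autoImplicit false

namespace Fermat.Agent.EllRed

open IsLocalRing
open scoped Pointwise

variable {K₀ L : Type*} [Field K₀] [Field L] [Algebra K₀ L] {A : ValuationSubring L}

/-- Elements of the decomposition group preserve the valuation subring. -/
lemma apply_mem_iff_of_mem_decomposition {σ : L ≃ₐ[K₀] L} (hσ : σ ∈ A.decompositionSubgroup K₀)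
    (x : L) : σ x ∈ A ↔ x ∈ A := by
  have h1 : σ • A = A := MulAction.mem_stabilizer_iff.mp hσ
  have h2 : σ • x ∈ σ • A ↔ x ∈ A := ValuationSubring.smul_mem_pointwise_smul_iff
  rw [h1] at h2
  exact h2

/-- The action of the decomposition group on residues. -/
lemma res_apply_of_mem_decomposition {σ : L ≃ₐ[K₀] L} (hσ : σ ∈ A.decompositionSubgroup K₀)
    {x : L} (hx : x ∈ A) :
    res A (σ x) = (⟨σ, hσ⟩ : A.decompositionSubgroup K₀) • res A x := by
  have hσx : σ x ∈ A := (apply_mem_iff_of_mem_decomposition hσ x).mpr hx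
  rw [res_of_mem hσx, res_of_mem hx, ← IsLocalRing.ResidueField.residue_smul]
  rfl

/-- A Frobenius element acts on residues by the `q`-th power. -/
lemma res_apply_of_isFrobeniusAt {σ : L ≃ₐ[K₀] L} {q : ℕ} (hσ : A.IsFrobeniusAt σ q)
    {x : L} (hx : x ∈ A) : res A (σ x) = res A x ^ q := by
  rw [res_apply_of_mem_decomposition hσ.mem_decompositionSubgroup hx]
  exact hσ.smul_residue_eq _

lemma apply_mem_iff_of_isFrobeniusAt {σ : L ≃ₐ[K₀] L} {q : ℕ} (hσ : A.IsFrobeniusAt σ q)
    (x : L) : σ x ∈ A ↔ x ∈ A :=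
  apply_mem_iff_of_mem_decomposition hσ.mem_decompositionSubgroup x

end Fermat.Agent.EllRed
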